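import Fermat.Agent.HeckeDifferent.QuadraticField
import Fermat.Agent.ArtinFE.Linear

/-!
# The quadratic field of a real character of finite order

A primitive nontrivial real character `g` of the ideals modulo `𝔣` has a quadratic extension `L`
with `ζ_L = ζ_K L (g)`: it is the class field of its kernel, and `𝔣` is its conductor.
-/

set_option autoImplicit false
set_option linter.unusedSectionVars false
set_option linter.style.haveILetI false

noncomputable section

universe u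

open NumberField NumberField.InfinitePlace IsDedekindDomain Module Finset
open FA.Hecke (IsRayChar IsNontrivial heckeL coprimeIdeals RayClassGroup rayClass rayClass_surjective
  rayClass_eq_iff isRayElt_one)
open FA.Ext (primeIdeal)
open FA.HeckeCharFE (HasSigns IsPrimitiveChar conjChar sgnS rv_eq_embedding)
open FA.ArtinL (artinL artinL_add artinL_one dedekindZeta_eq_artinL)
open FA.ArtinRec
open scoped nonZeroDivisors Classical

namespace FA.QuadraticRootNumber

variable {K : Type u} [Field K] [NumberField K] {𝔣 : Ideal (𝓞 K)} {g : Ideal (𝓞 K) →* ℂ}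

theorem mul_self_eq_one (hray : IsRayChar 𝔣 g) (hreal : conjChar g = g) {I : Ideal (𝓞 K)}
    (hI : I ≠ ⊥) (h0 : g I ≠ 0) : g I * g I = 1 := by
  nth_rw 2 [← hreal]
  show g I * starRingEnd ℂ (g I) = 1
  rw [Complex.mul_conj', hray.norm_eq_one hI h0]
  simp

/-- **The quadratic field.** -/
theorem exists_quadratic_field {S : Finset (InfinitePlace K)} (h : HasSigns 𝔣 g S)
    (hp : IsPrimitiveChar 𝔣 g) (hnt : IsNontrivial g) (hreal : conjChar g = g) :
    ∃ (L : Type u) (_ : Field L) (_ : NumberField L),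
      ∀ s : ℂ, 1 < s.re → dedekindZeta L s = dedekindZeta K s * heckeL g s := by
  obtain ⟨χ, hχ⟩ := FA.HeckeCharFE.exists_rayClassHom h.ray
  have hsemi : semiClasses h.ray.ne_bot (↑S : Set (InfinitePlace K)) ≤ χ.ker := by
    rw [semiClasses, Subgroup.closure_le]
    rintro _ ⟨x, hx, rfl⟩
    refine Units.ext ?_
    rw [hχ, Units.val_one]
    show g (Ideal.span {x}) = 1
    rw [h.sgn x hx.1 hx.2.1, sgnS]
    exact Finset.prod_eq_one fun w hw => by
      rw [rv_eq_embedding (h.real w hw), Real.sign_of_pos (hx.2.2 w hw _), Complex.ofReal_one]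
  obtain ⟨L, _, _, _, _, _, hL⟩ :=
    exists_classField h.ray.ne_bot (↑S : Set (InfinitePlace K)) χ.ker hsemi
  have h2 : ∀ γ, χ γ ^ 2 = 1 := fun γ => by
    obtain ⟨I, rfl⟩ := rayClass_surjective h.ray.ne_bot γ
    refine Units.ext ?_
    rw [Units.val_pow_eq_pow_val, sq, hχ, Units.val_one]
    exact mul_self_eq_one h.ray hreal (nonZeroDivisors.coe_ne_zero I.1)
      ((h.ray.ne_zero_iff _ (nonZeroDivisors.coe_ne_zero I.1)).2 I.2)
  have hcard : Nat.card (L ≃ₐ[K] L) = 2 := by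
    rw [hL.card_eq, Subgroup.index_ker]
    have hle : χ.range ≤ rootsOfUnity 2 ℂ := by
      rintro _ ⟨γ, rfl⟩
      exact (mem_rootsOfUnity 2 _).2 (h2 γ)
    have h1 : Nat.card χ.range ≤ 2 :=
      (Nat.card_le_card_of_injective (Subgroup.inclusion hle)
        (Subgroup.inclusion_injective hle)).trans (card_rootsOfUnity ℂ 2)
    have h3 : 1 < Nat.card χ.range := by
      haveI : Finite χ.range := Finite.of_injective _ (Subgroup.inclusion_injective hle)
      rw [Finite.one_lt_card_iff_nontrivial, Subgroup.nontrivial_iff_ne_bot, ne_eq,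
        MonoidHom.range_eq_bot_iff]
      intro he
      obtain ⟨I, hI, hI0, hI1⟩ := hnt
      refine hI1 ?_
      have h4 := hχ ⟨⟨I, mem_nonZeroDivisors_iff_ne_zero.2 hI⟩, (h.ray.ne_zero_iff I hI).1 hI0⟩
      rw [he, MonoidHom.one_apply, Units.val_one] at h4
      exact h4.symm
    omega
  obtain ⟨ω, hsurj, hker, hω⟩ := hL.artin
  set ψ : (L ≃ₐ[K] L) →* ℂˣ := ω.liftOfSurjective hsurj ⟨χ, hker.le⟩
  have hψω : ∀ γ, ψ (ω γ) = χ γ := fun γ => MonoidHom.liftOfRightInverse_comp_apply _ _ _ _ γ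
  have hψ : Function.Injective ψ := (injective_iff_map_eq_one ψ).2 fun σ hσ => by
    obtain ⟨γ, rfl⟩ := hsurj σ
    rw [hψω] at hσ
    rw [← MonoidHom.mem_ker, hker]
    exact hσ
  have hg : ∀ I : coprimeIdeals 𝔣, g I.1.1 = (ψ (artinHom L I.1) : ℂ) := fun I => by
    rw [← hω, hψω, hχ]
  -- `𝔣` is the conductor, so its primes ramify
  obtain ⟨𝔠, hciff, hc, hcsupp⟩ := FA.RayFields.exists_conductor K L
  have hdvd : 𝔠 ∣ 𝔣 := (hciff 𝔣 h.ray.ne_bot).1 (FA.RayFields.isModulus_of_isClassField hL)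
  have hceq : 𝔠 = 𝔣 := by
    by_contra hne
    obtain ⟨x, hx0, hxc, hx1, hxp, hxg⟩ :=
      hp 𝔠 (lt_of_le_of_ne (Ideal.le_of_dvd hdvd) (Ne.symm hne))
    obtain ⟨H, hH⟩ := hc.exists_classField
    obtain ⟨ω', -, -, hω'⟩ := hH.artin
    have hcc : Ideal.span {x} ⊔ 𝔠 = ⊤ :=
      top_le_iff.1 (hxc.symm.le.trans (sup_le_sup_left (Ideal.le_of_dvd hdvd) _))
    set I : (Ideal (𝓞 K))⁰ :=
      ⟨Ideal.span {x}, mem_nonZeroDivisors_iff_ne_zero.2 (by simpa using hx0)⟩
    have hone : rayClass hc.ne_bot ⟨I, hcc⟩ = 1 := by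
      rw [← map_one (rayClass hc.ne_bot), rayClass_eq_iff]
      exact ⟨1, x, isRayElt_one, ⟨hx0, hx1, hxp⟩, by simp [I, Ideal.one_eq_top]⟩
    have hA : artinHom L I = 1 := by
      have := hω' ⟨I, hcc⟩
      rw [hone, map_one] at this
      exact this.symm
    refine hxg ?_
    rw [show Ideal.span {x} = (⟨I, hxc⟩ : coprimeIdeals 𝔣).1.1 from rfl, hg, hA, map_one,
      Units.val_one]
  rw [hceq] at hcsupp
  refine ⟨L, inferInstance, inferInstance, fun s hs => ?_⟩
  have hgv : ∀ v : HeightOneSpectrum (𝓞 K), ¬ IsRam L v → g v.asIdeal = (ψ (artinAt L v) : ℂ) :=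
    fun v hv => by
      have hv' : v.asIdeal ⊔ 𝔣 = ⊤ :=
        (sup_eq_top_iff_not_le v 𝔣).2 fun hle => hv ((hcsupp v).1 (Ideal.dvd_iff_le.2 hle))
      rw [show v.asIdeal = (⟨primeIdeal v, hv'⟩ : coprimeIdeals 𝔣).1.1 from rfl, hg]
      exact congrArg (fun σ => (ψ σ : ℂ)) (artinHom_prime v)
  rw [dedekindZeta_eq_artinL (K := K) (L := L) hs L, FA.HeckeDiff.inducedFn_eq_one_add hcard ψ hψ,
    artinL_add hs, artinL_one hs, FA.ArtinFE.artinL_eq_heckeL ψ hψ h.ray hcsupp hgv hs]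

end FA.QuadraticRootNumber

end
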