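import Fermat.Agent.QuadraticRootNumber.Field
import Fermat.Agent.ArtinFE.Completed
import Fermat.Agent.HeckeBS.EulerBound

/-!
# Real characters of finite order have root number one

The completions of `ζ_L` and of `ζ_K L (g)` have the same factors, as these are determined by the
functional equations, hence the same signs.
-/

set_option autoImplicit false
set_option linter.unusedSectionVars false
set_option linter.style.haveILetI false

noncomputable section

open NumberField NumberField.InfinitePlace Filter Topology Complex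
open FA.Hecke (IsNontrivial heckeL)
open FA.HeckeCharFE (HasSigns IsPrimitiveChar conjChar rootC)
open FA.ArtinFE (gamProd)
open scoped Classical

namespace FA.QuadraticRootNumber

/-- Two completions equal on a half-plane have the same root number. -/
theorem root_unique {Λ₁ Λ₁' Λ₂ Λ₂' : ℂ → ℂ} {W₁ W₂ : ℂ} (hm₁ : Meromorphic Λ₁)
    (hm₁' : Meromorphic Λ₁') (hm₂ : Meromorphic Λ₂) (hm₂' : Meromorphic Λ₂')
    (h : ∀ s : ℂ, 1 < s.re → Λ₁ s = Λ₂ s) (h' : ∀ s : ℂ, 1 < s.re → Λ₁' s = Λ₂' s)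
    (hne : ∀ s : ℂ, 1 < s.re → Λ₂' s ≠ 0)
    (he₁ : ∀ s, Λ₁ (1 - s) = W₁ * Λ₁' s) (he₂ : ∀ s, Λ₂ (1 - s) = W₂ * Λ₂' s) : W₁ = W₂ := by
  have hU : ∀ᶠ s in 𝓝[≠] (2 : ℂ), 1 < s.re :=
    nhdsWithin_le_nhds ((isOpen_lt continuous_const Complex.continuous_re).mem_nhds
      (show (1 : ℝ) < (2 : ℂ).re by norm_num))
  have e : ∀ x, ∀ᶠ s in 𝓝[≠] x, Λ₁ s - Λ₂ s = 0 :=
    FA.ArtinFE.eventually_zero (fun x => (hm₁ x).fun_sub (hm₂ x))
      (hU.mono fun s hs => by rw [h s hs, sub_self])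
  obtain ⟨s, hs, h1⟩ :=
    (hU.and ((FA.ArtinFE.tendsto_one_sub_punctured 2).eventually (e (1 - 2)))).exists
  refine mul_right_cancel₀ (hne s hs) ?_
  rw [← he₂, ← sub_eq_zero.1 h1, he₁, h' s hs]

variable {K : Type*} [Field K] [NumberField K] {𝔣 : Ideal (𝓞 K)} {g : Ideal (𝓞 K) →* ℂ}
  {S : Finset (InfinitePlace K)}

/-- **Hecke's theorem: the root number of a real character is `1`.** -/
theorem rootC_eq_one (h : HasSigns 𝔣 g S) (hp : IsPrimitiveChar 𝔣 g) (hnt : IsNontrivial g)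
    (hreal : conjChar g = g) : rootC 𝔣 g S = 1 := by
  obtain ⟨L, _, _, hL⟩ := exists_quadratic_field h hp hnt hreal
  obtain ⟨ΞK, hKm, hK, hKe⟩ := FA.ArtinFE.exists_zeta_completed K
  obtain ⟨ΞL, hLm, hΞL, hLe⟩ := FA.ArtinFE.exists_zeta_completed L
  set Λg := h.completedL hp
  set Λg' := h.conj.completedL hp.conj
  have hgm : Meromorphic Λg := fun x =>
    ((h.differentiable_completedL hp).analyticAt x).meromorphicAt
  have hgm' : Meromorphic Λg' := fun x =>
    ((h.conj.differentiable_completedL hp.conj).analyticAt x).meromorphicAt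
  set A : ℕ := (discr K).natAbs * Ideal.absNorm 𝔣
  set a : ℤ := (nrRealPlaces K : ℤ) - S.card + nrComplexPlaces K
  set b : ℤ := (S.card : ℤ) + nrComplexPlaces K
  have hA : (0 : ℝ) < (A : ℝ) := Nat.cast_pos.2 (Nat.pos_of_ne_zero (mul_ne_zero
    (Int.natAbs_ne_zero.2 (discr_ne_zero K)) fun e => h.ray.ne_bot (Ideal.absNorm_eq_zero_iff.1 e)))
  have hdK : (0 : ℝ) < ((discr K).natAbs : ℝ) := Nat.cast_pos.2 (Int.natAbs_pos.2 (discr_ne_zero K))
  have hdL : (0 : ℝ) < ((discr L).natAbs : ℝ) := Nat.cast_pos.2 (Int.natAbs_pos.2 (discr_ne_zero L))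
  have hg : ∀ s : ℂ, 1 < s.re → Λg s = gamProd (A : ℝ) a b s * heckeL g s := fun s hs => by
    rw [show Λg s = _ from h.completedL_half hp hnt hs,
      FA.ArtinFE.charFac_eq_gamProd h.ray.ne_bot h.real (one_pos.trans hs)]
  have hg' : ∀ s : ℂ, 1 < s.re → Λg' s = gamProd (A : ℝ) a b s * heckeL g s := fun s hs => by
    rw [show Λg' s = _ from h.conj.completedL_half hp.conj hnt.conj hs,
      FA.ArtinFE.charFac_eq_gamProd h.ray.ne_bot h.real (one_pos.trans hs)]
    show _ * heckeL (conjChar g) s = _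
    rw [hreal]
  set aK : ℤ := (nrRealPlaces K : ℤ) + nrComplexPlaces K
  set bK : ℤ := (nrComplexPlaces K : ℤ)
  have hprod : ∀ (Λ : ℂ → ℂ), (∀ s : ℂ, 1 < s.re → Λ s = gamProd (A : ℝ) a b s * heckeL g s) →
      ∀ s : ℂ, 1 < s.re → ΞK s * Λ s =
        gamProd (((discr K).natAbs : ℝ) * A) (aK + a) (bK + b) s * dedekindZeta L s :=
    fun Λ hΛ s hs => by
      rw [hK s hs, hΛ s hs, hL s hs,
        ← FA.ArtinFE.gamProd_mul hdK hA _ _ _ _ (one_pos.trans hs)]
      ring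
  have hWne : rootC 𝔣 g S ≠ 0 := fun e => by
    have := h.norm_rootC hp hnt
    simp [e] at this
  have hne : ∀ s : ℂ, 1 < s.re → dedekindZeta L s ≠ 0 := fun s hs => by
    rw [hL s hs]
    exact mul_ne_zero (norm_pos_iff.1 ((Real.exp_pos _).trans_le
      (FA.HeckeBS.norm_dedekindZeta_bounds (K := K) hs).1)) (h.ray.heckeL_ne_zero hs)
  have hmK : Meromorphic fun s => ΞK s * Λg s := fun x => (hKm x).fun_mul (hgm x)
  have hmK' : Meromorphic fun s => ΞK s * Λg' s := fun x => (hKm x).fun_mul (hgm' x)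
  have he1 : ∀ s, ΞK (1 - s) * Λg (1 - s) = rootC 𝔣 g S * (ΞK s * Λg' s) := fun s => by
    rw [hKe, show Λg (1 - s) = _ from h.completedL_one_sub hp hnt s]
    ring
  have he2 : ∀ s, ΞL (1 - s) = 1 * ΞL s := fun s => by rw [hLe, one_mul]
  obtain ⟨hA', ha, hb⟩ := FA.ArtinFE.params_unique (mul_pos hdK hA) hdL hWne one_ne_zero hne
    hmK hmK' hLm hLm (hprod Λg hg) (hprod Λg' hg') hΞL hΞL he1 he2
  refine root_unique hmK hmK' hLm hLm (fun s hs => ?_) (fun s hs => ?_) (fun s hs => ?_) he1 he2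
  · rw [hprod Λg hg s hs, hΞL s hs, hA', ha, hb]
  · rw [hprod Λg' hg' s hs, hΞL s hs, hA', ha, hb]
  · rw [hΞL s hs]
    exact mul_ne_zero (FA.ArtinFE.gamProd_ne_zero _ _ _ (one_pos.trans hs)) (hne s hs)

end FA.QuadraticRootNumber

end
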